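/-
helper77, P-CFT row 957 (GC-SHAP), part 1: `H¹` of the trivial module `ZMod p` is the group of
level homomorphisms.

For a level system `𝒲` on a group `G`:
* `gcsH1Map`           : `{ψ // IsLvlHom 𝒲 ψ} → lvlH 𝒲 (trivZ G p) 1`, `ψ ↦ [ψ]`;
* `gcsH1Map_bijective` : it is bijective (`B¹ = 0` for trivial coefficients);
* `gcs_natCard_h1`     : `Nat.card (lvlH 𝒲 (trivZ G p) 1) = Nat.card {ψ // IsLvlHom 𝒲 ψ}`;
* `gcs_h1Finite_of_finite` : `Module.Finite (lvlH 𝒲 (trivZ G p) 1) → H1Finite 𝒲 p`.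
-/
import Fermat.Agent.H85.Cft.LcDict

set_option autoImplicit false
set_option linter.style.haveILetI false
set_option linter.unusedSectionVars false
set_option linter.unusedVariables false

open CategoryTheory groupCohomology

namespace Fermat.Agent.H77

open Fermat.Agent.H13.Cft Fermat.Agent.H19 Fermat.Agent.H78.CFT Fermat.Agent.H85.LcShap

variable {G : Type} [Group G] (p : ℕ)

/-- Every level system is finer than itself. -/
lemma gcs_finer_refl (𝒲 : LevelSys G) : Finer 𝒲 𝒲 := fun N hN => ⟨N, hN, le_rfl⟩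

/-- The differential `d⁰` of the trivial module vanishes. -/
lemma gcs_d0_apply (x : (Fin 0 → G) → trivZ G p) (g : Fin 1 → G) :
    (inhomogeneousCochains.d (trivZ G p) 0).hom x g = 0 := by
  rw [inhomogeneousCochains.d_hom_apply]
  simp only [Fin.sum_univ_succ, Fin.sum_univ_zero]
  have e1 : (fun i : Fin 0 => g i.succ) = Fin.contractNth (0 : Fin 1) (· * ·) g := by
    funext i; exact i.elim0
  rw [e1]
  simp

lemma gcs_lvlD0_eq_zero (𝒲 : LevelSys G) (z : lvlCochains 𝒲 (trivZ G p) 0) :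
    lvlD 𝒲 (trivZ G p) 0 z = 0 := by
  apply Subtype.ext
  funext g
  rw [lvlD_coe]
  exact gcs_d0_apply p z.1 g

variable {p} in
/-- The level `1`-cocycle of a level homomorphism. -/
lemma gcs_lvlD_C1 [Fact p.Prime] (𝒲 : LevelSys G) {ψ : G → ZMod p} (hψ : IsLvlHom 𝒲 ψ) :
    lvlD 𝒲 (trivZ G p) 1 (lcsC1 p (gcs_finer_refl 𝒲) ψ hψ.2) = 0 := by
  apply Subtype.ext
  funext g
  have h1 := lcs_d_C1 p (gcs_finer_refl 𝒲) ψ hψ.2 g
  show ((lvlD 𝒲 (trivZ G p) 1 (lcsC1 p (gcs_finer_refl 𝒲) ψ hψ.2)).1 g : ZMod p) = 0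
  rw [h1, hψ.1 (g 0) (g 1)]
  ring

/-- `ψ ↦ [ψ]`. -/
noncomputable def gcsH1Map [Fact p.Prime] (𝒲 : LevelSys G) (ψ : {ψ : G → ZMod p // IsLvlHom 𝒲 ψ}) :
    lvlH 𝒲 (trivZ G p) 1 :=
  lvlHMk 𝒲 (trivZ G p) 1 (lcsC1 p (gcs_finer_refl 𝒲) ψ.1 ψ.2.2) (gcs_lvlD_C1 𝒲 ψ.2)

theorem gcsH1Map_injective [Fact p.Prime] (𝒲 : LevelSys G) : Function.Injective (gcsH1Map p 𝒲) := by
  intro ψ ψ' h
  rw [gcsH1Map, gcsH1Map, lvlHMk_succ_eq_iff] at h
  obtain ⟨z, hz⟩ := h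
  rw [gcs_lvlD0_eq_zero] at hz
  apply Subtype.ext
  funext g
  have h1 := congrFun (congrArg Subtype.val hz) (fun _ => g)
  have h2 : (0 : ZMod p) = ψ.1 g - ψ'.1 g := h1
  exact (sub_eq_zero.mp h2.symm)

theorem gcsH1Map_surjective [Fact p.Prime] (𝒲 : LevelSys G) :
    Function.Surjective (gcsH1Map p 𝒲) := by
  intro w
  obtain ⟨x, hx, rfl⟩ := lvlHMk_surjective 𝒲 (trivZ G p) 1 w
  refine ⟨⟨fun g => (x.1 (fun _ => g) : ZMod p),
    lcs_isLvlHom_of_cocycle p (gcs_finer_refl 𝒲) x hx⟩, ?_⟩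
  rw [gcsH1Map]
  apply lvlHMk_congr
  apply Subtype.ext
  funext g
  show (x.1 (fun _ => g 0) : ZMod p) = x.1 g
  rw [lcs_vec1 g]

theorem gcsH1Map_bijective [Fact p.Prime] (𝒲 : LevelSys G) :
    Function.Bijective (gcsH1Map p 𝒲) :=
  ⟨gcsH1Map_injective p 𝒲, gcsH1Map_surjective p 𝒲⟩

/-- `# H¹(𝒲, ZMod p) = # Hom_level(G, ZMod p)`. -/
theorem gcs_natCard_h1 [Fact p.Prime] (𝒲 : LevelSys G) :
    Nat.card (lvlH 𝒲 (trivZ G p) 1) = Nat.card {ψ : G → ZMod p // IsLvlHom 𝒲 ψ} :=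
  (Nat.card_eq_of_bijective _ (gcsH1Map_bijective p 𝒲)).symm

/-- Finiteness of the set of level homomorphisms from finiteness of `H¹`. -/
theorem gcs_finite_lvlHom [Fact p.Prime] (𝒲 : LevelSys G)
    (h : Module.Finite (ZMod p) (lvlH 𝒲 (trivZ G p) 1)) :
    Finite {ψ : G → ZMod p // IsLvlHom 𝒲 ψ} := by
  haveI : Finite (lvlH 𝒲 (trivZ G p) 1) := Module.finite_of_finite (ZMod p)
  exact Finite.of_injective _ (gcsH1Map_injective p 𝒲)

/-- Finiteness of `H¹` from finiteness of the set of level homomorphisms. -/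
theorem gcs_finite_h1 [Fact p.Prime] (𝒲 : LevelSys G) (h : H1Finite 𝒲 p) :
    Module.Finite (ZMod p) (lvlH 𝒲 (trivZ G p) 1) :=
  lcs_h1_finite p (gcs_finer_refl 𝒲) h

end Fermat.Agent.H77
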