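/-
helper77, P-CFT row 957 (GC-SHAP), part 3: the Shapiro image of a class of `Ш²(𝔽_p[G/U])` is
locally trivial at all places `(v, g)` of `U`.

`P = 𝔽_p[G/U]`, `e : P ≅ Coind_U 𝔽_p` (helper30's `permCoind`), `T = 𝔽_p` the trivial module
of `U`.
* `gcsSigma e`            : `C(G, P) ⟶ C(U, T)`, the Shapiro map composed with `e`;
* `gcsSigma_bijective`    : it is bijective on cohomology (helper97's `shapiro`);
* `gcs_square`            : the Mackey square (helper73) for `P`;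
* `gcs_res_sha_eq_zero`   : classes of `Шⁿ(P)` restrict to `0` at every `v`;
* `gcs_locRes_sigma_sha`  : the Shapiro image of a class of `Шⁿ(P)` restricts to `0` on every
                            decomposition subgroup `D_{v,g}`;
* `gcs_isLocTriv₂`        : dictionary, degree `2`.
-/
import Fermat.Agent.H77.GcShap.H1Triv
import Fermat.Agent.H13.Cft.ULang
import Fermat.Agent.H97.Shap.Main
import Fermat.Agent.H75.LocFinite
import Fermat.Agent.H85.Cft.LcShap

set_option autoImplicit false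
set_option linter.style.haveILetI false
set_option linter.unusedSectionVars false
set_option linter.unusedVariables false

open CategoryTheory groupCohomology

namespace Fermat.Agent.H77

open Fermat.Agent.H13.Cft Fermat.Agent.H19 Fermat.Agent.H78.CFT Fermat.Agent.H85.LcShap
  Fermat.Agent.H97.Shap Fermat.Agent.H75.LocFin

noncomputable section

variable {p : ℕ} [Fact p.Prime] {G : Type} [Group G] (𝔄 : ArithDatum (ZMod p) G)
  (U : Subgroup G) (hU : ∃ N ∈ 𝔄.lvl.sets, N ≤ U)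

/-- The permutation module `𝔽_p[G/U]`. -/
abbrev gcsP (p : ℕ) [Fact p.Prime] {G : Type} [Group G] (U : Subgroup G) : Rep (ZMod p) G :=
  Rep.ofMulAction (ZMod p) G (G ⧸ U)

/-- The coinduced module `Coind_U 𝔽_p`. -/
abbrev gcsC (p : ℕ) [Fact p.Prime] {G : Type} [Group G] (U : Subgroup G) : Rep (ZMod p) G :=
  Rep.coind U.subtype (trivZ U p)

variable (e : gcsP p U ≅ gcsC p U)

/-- The Shapiro map of the permutation module. -/
def gcsSigma : lvlComplex 𝔄.lvl (gcsP p U) ⟶ lvlComplex (𝔄.lvl.restrict U hU) (trivZ U p) :=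
  lvlMap 𝔄.lvl e.hom ≫ shapiroMap 𝔄.lvl U hU (trivZ U p)

lemma gcs_isIso_lvlMap {H : Type} [Group H] (𝒱 : LevelSys H) {A B : Rep (ZMod p) H}
    (f : A ≅ B) (n : ℕ) :
    IsIso (HomologicalComplex.homologyMap (lvlMap 𝒱 f.hom) n) := by
  refine ⟨HomologicalComplex.homologyMap (lvlMap 𝒱 f.inv) n, ?_, ?_⟩
  · rw [← HomologicalComplex.homologyMap_comp, ← lvlMap_comp, f.hom_inv_id, lvlMap_id,
      HomologicalComplex.homologyMap_id]
  · rw [← HomologicalComplex.homologyMap_comp, ← lvlMap_comp, f.inv_hom_id, lvlMap_id,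
      HomologicalComplex.homologyMap_id]

lemma gcs_bijective_lvlMap {H : Type} [Group H] (𝒱 : LevelSys H) {A B : Rep (ZMod p) H}
    (f : A ≅ B) (n : ℕ) :
    Function.Bijective (HomologicalComplex.homologyMap (lvlMap 𝒱 f.hom) n).hom := by
  haveI := gcs_isIso_lvlMap 𝒱 f n
  exact ConcreteCategory.bijective_of_isIso _

lemma gcs_bijective_shapiro (n : ℕ) :
    Function.Bijective
      (HomologicalComplex.homologyMap (shapiroMap 𝔄.lvl U hU (trivZ U p)) n).hom := by
  haveI := Fermat.Agent.H97.Shap.shapiro.{0} 𝔄.lvl U hU (trivZ U p)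
    (lcs_isSmooth_trivial _) n
  exact ConcreteCategory.bijective_of_isIso _

lemma gcsSigma_homologyMap_apply (n : ℕ) (x : lvlH 𝔄.lvl (gcsP p U) n) :
    (HomologicalComplex.homologyMap (gcsSigma 𝔄 U hU e) n).hom x =
      (HomologicalComplex.homologyMap (shapiroMap 𝔄.lvl U hU (trivZ U p)) n).hom
        ((HomologicalComplex.homologyMap (lvlMap 𝔄.lvl e.hom) n).hom x) := by
  rw [gcsSigma, HomologicalComplex.homologyMap_comp]
  rfl

/-- The Shapiro map of the permutation module is bijective on cohomology. -/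
theorem gcsSigma_bijective (n : ℕ) :
    Function.Bijective (HomologicalComplex.homologyMap (gcsSigma 𝔄 U hU e) n).hom := by
  have h1 := gcs_bijective_lvlMap 𝔄.lvl e n
  have h2 := gcs_bijective_shapiro 𝔄 U hU n
  have h3 : (HomologicalComplex.homologyMap (gcsSigma 𝔄 U hU e) n).hom =
      (HomologicalComplex.homologyMap (shapiroMap 𝔄.lvl U hU (trivZ U p)) n).hom ∘
        (HomologicalComplex.homologyMap (lvlMap 𝔄.lvl e.hom) n).hom := by
    funext x
    exact gcsSigma_homologyMap_apply 𝔄 U hU e n x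
  rw [h3]
  exact h2.comp h1


/-! ### The Mackey square for the permutation module -/

/-- Naturality of restriction in the coefficients (on cochains). -/
lemma gcs_lvlRes_natural {Γ : Type} [Group Γ] (𝒱 : LevelSys Γ) (loc : Γ →* G)
    (hloc : 𝒱.Compat 𝔄.lvl loc) {A B : Rep (ZMod p) G} (f : A ⟶ B) :
    lvlMap 𝔄.lvl f ≫ lvlRes loc hloc B =
      lvlRes loc hloc A ≫ lvlMap 𝒱 ((Rep.resFunctor loc).map f) := by
  ext n x : 3
  rfl

/-- The component at `v` of the total localisation map. -/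
lemma gcs_resTot_locProj (M : Rep (ZMod p) G) (v : 𝔄.ι) :
    resTot 𝔄 M ≫ locProj 𝔄 M v = lvlRes (𝔄.loc v) (𝔄.compat v) M := by
  ext n x : 3
  rfl

/-- Classes of `Шⁿ(M)` restrict to `0` at every `v`. -/
theorem gcs_res_sha_eq_zero (M : Rep (ZMod p) G) (n : ℕ) (x : lvlH 𝔄.lvl M n)
    (hx : x ∈ frameSha 𝔄 M n) (v : 𝔄.ι) :
    (HomologicalComplex.homologyMap (lvlRes (𝔄.loc v) (𝔄.compat v) M) n).hom x = 0 := by
  rw [← gcs_resTot_locProj, HomologicalComplex.homologyMap_comp]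
  have h0 : (HomologicalComplex.homologyMap (resTot 𝔄 M) n).hom x = 0 := LinearMap.mem_ker.1 hx
  show (HomologicalComplex.homologyMap (locProj 𝔄 M v) n).hom
    ((HomologicalComplex.homologyMap (resTot 𝔄 M) n).hom x) = 0
  rw [h0, map_zero]

/-- **The Mackey square** for the permutation module: Shapiro followed by restriction to the
decomposition subgroup `D_{v,g}` is restriction to `Γ_v` followed by the Mackey map at `g`. -/
theorem gcs_square (v : 𝔄.ι) (g : G) (n : ℕ) (x : lvlH 𝔄.lvl (gcsP p U) n) :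
    (HomologicalComplex.homologyMap
        (lvlRes (mackeyLoc (𝔄.loc v) U g) (mackeyLoc_compat (𝔄.loc v) U g (𝔄.compat v) hU)
          (trivZ U p)) n).hom
      ((HomologicalComplex.homologyMap (gcsSigma 𝔄 U hU e) n).hom x) =
    (HomologicalComplex.homologyMap (mackeyMap (𝔄.loc v) U g (𝔄.compat v) hU (trivZ U p)) n).hom
      ((HomologicalComplex.homologyMap
          (lvlMap (𝔄.lvlv v) ((Rep.resFunctor (𝔄.loc v)).map e.hom)) n).hom
        ((HomologicalComplex.homologyMap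
          (lvlRes (𝔄.loc v) (𝔄.compat v) (gcsP p U)) n).hom x)) := by
  have hsq := Fermat.Agent.H97.Shap.mackeySquareU.{0} 𝔄.lvl (𝔄.lvlv v) (𝔄.loc v) (𝔄.compat v)
    U hU g (trivZ U p) (lcs_isSmooth_trivial _) n
  have hnat := congrArg (fun f => HomologicalComplex.homologyMap f n)
    (gcs_lvlRes_natural 𝔄 (𝔄.lvlv v) (𝔄.loc v) (𝔄.compat v) e.hom)
  simp only [HomologicalComplex.homologyMap_comp] at hnat
  rw [gcsSigma_homologyMap_apply]
  have h1 := congrArg (fun f => f.hom ((HomologicalComplex.homologyMap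
    (lvlMap 𝔄.lvl e.hom) n).hom x)) hsq
  simp only [ModuleCat.hom_comp, LinearMap.comp_apply] at h1
  rw [← h1]
  have h2 := congrArg (fun f => f.hom x) hnat
  simp only [ModuleCat.hom_comp, LinearMap.comp_apply] at h2
  rw [h2]

/-- The Shapiro image of a class of `Шⁿ(𝔽_p[G/U])` restricts to `0` on every decomposition
subgroup `D_{v,g}` of `U`. -/
theorem gcs_locRes_sigma_sha (v : 𝔄.ι) (g : G) (n : ℕ) (x : lvlH 𝔄.lvl (gcsP p U) n)
    (hx : x ∈ frameSha 𝔄 (gcsP p U) n) :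
    (HomologicalComplex.homologyMap
        (lvlRes (mackeyLoc (𝔄.loc v) U g) (mackeyLoc_compat (𝔄.loc v) U g (𝔄.compat v) hU)
          (trivZ U p)) n).hom
      ((HomologicalComplex.homologyMap (gcsSigma 𝔄 U hU e) n).hom x) = 0 := by
  rw [gcs_square, gcs_res_sha_eq_zero 𝔄 _ n x hx v, map_zero, map_zero]

/-! ### Dictionary in degree `2` -/

/-- The elementary `2`-cochain of a level `2`-cochain. -/
def gcsElem₂ {H : Type} [Group H] {𝒲 : LevelSys H} (c : lvlCochains 𝒲 (trivZ H p) 2) :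
    H × H → ZMod p := fun q => (c.1 ![q.1, q.2] : ZMod p)

lemma gcs_isLvl₂ {H : Type} [Group H] {𝒲 : LevelSys H} (c : lvlCochains 𝒲 (trivZ H p) 2) :
    IsLvl₂ 𝒲 (gcsElem₂ c) :=
  lcs_isLvl2_of_mem p (gcs_finer_refl 𝒲) c.2

lemma gcs_isTrivCocycle₂ {H : Type} [Group H] {𝒲 : LevelSys H}
    (c : lvlCochains 𝒲 (trivZ H p) 2) (hc : lvlD 𝒲 (trivZ H p) 2 c = 0) :
    IsTrivCocycle₂ (gcsElem₂ c) :=
  lcs_isTrivCocycle2_of p c hc

/-- A level `2`-cochain is a level coboundary iff its elementary cochain is. -/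
lemma gcs_isLvlCoboundary₂_iff {H : Type} [Group H] {𝒲 : LevelSys H}
    (c : lvlCochains 𝒲 (trivZ H p) 2) :
    (∃ b : lvlCochains 𝒲 (trivZ H p) 1, lvlD 𝒲 (trivZ H p) 1 b = c) ↔
      IsLvlCoboundary₂ 𝒲 (gcsElem₂ c) := by
  constructor
  · rintro ⟨b, hb⟩
    refine ⟨fun h => (b.1 (fun _ => h) : ZMod p), lcs_isLvl1_of_mem p (gcs_finer_refl 𝒲) b.2,
      fun h h' => ?_⟩
    have h1 : (inhomogeneousCochains.d (trivZ H p) 1).hom b.1 ![h, h'] = c.1 ![h, h'] := by
      rw [← lvlD_coe, hb]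
    rw [lcs_d1_apply] at h1
    show _ = (c.1 ![h, h'] : ZMod p)
    simpa using h1
  · rintro ⟨f, hf, hfc⟩
    refine ⟨lcsC1 p (gcs_finer_refl 𝒲) f hf, ?_⟩
    apply Subtype.ext
    funext h
    have h1 := lcs_d_C1 p (gcs_finer_refl 𝒲) f hf h
    show ((lvlD 𝒲 (trivZ H p) 1 (lcsC1 p (gcs_finer_refl 𝒲) f hf)).1 h : ZMod p) = c.1 h
    rw [h1, hfc (h 0) (h 1)]
    show (c.1 ![h 0, h 1] : ZMod p) = c.1 h
    rw [lcs_vec2 h]

/-- **Local triviality**: the Shapiro image of a class of `Ш²(𝔽_p[G/U])`, represented by the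
level `2`-cocycle `c` of `U`, is locally trivial at every place `(v, g)`. -/
theorem gcs_isLocTriv₂ (x : lvlH 𝔄.lvl (gcsP p U) 2) (hx : x ∈ frameSha 𝔄 (gcsP p U) 2)
    (c : lvlCochains (𝔄.lvl.restrict U hU) (trivZ U p) 2)
    (hc : lvlD (𝔄.lvl.restrict U hU) (trivZ U p) 2 c = 0)
    (hxc : (HomologicalComplex.homologyMap (gcsSigma 𝔄 U hU e) 2).hom x =
      lvlHMk (𝔄.lvl.restrict U hU) (trivZ U p) 2 c hc) (v : 𝔄.ι) (g : G) :
    IsLocTriv₂ 𝔄 U hU (gcsElem₂ c) v g := by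
  have h0 := gcs_locRes_sigma_sha 𝔄 U hU e v g 2 x hx
  rw [hxc, lvlHMk_naturality] at h0
  rw [lvlHMk_succ_eq_zero_iff] at h0
  have h1 := (gcs_isLvlCoboundary₂_iff _).1 h0
  have h2 : gcsElem₂ (((lvlRes (mackeyLoc (𝔄.loc v) U g)
      (mackeyLoc_compat (𝔄.loc v) U g (𝔄.compat v) hU) (trivZ U p)).f 2).hom c) =
      fun x => gcsElem₂ c (mackeyLoc (𝔄.loc v) U g x.1, mackeyLoc (𝔄.loc v) U g x.2) := by
    funext q
    show (c.1 (mackeyLoc (𝔄.loc v) U g ∘ ![q.1, q.2]) : ZMod p) =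
      c.1 ![mackeyLoc (𝔄.loc v) U g q.1, mackeyLoc (𝔄.loc v) U g q.2]
    have h3 : (mackeyLoc (𝔄.loc v) U g ∘ ![q.1, q.2]) =
        ![mackeyLoc (𝔄.loc v) U g q.1, mackeyLoc (𝔄.loc v) U g q.2] := by
      funext i
      fin_cases i <;> rfl
    rw [h3]
  rw [h2] at h1
  exact h1

end

end Fermat.Agent.H77
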