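/-
helper77, P-CFT row 957 (GC-SHAP), part 2: existence of a finite system of representatives of the
places of an open subgroup `U` over `v` (double cosets `U \ G / loc(Γ_v)`).
-/
import Fermat.Agent.H13.Cft.ULang
import Fermat.Agent.H39.Mackey

set_option autoImplicit false
set_option linter.style.haveILetI false
set_option linter.unusedSectionVars false
set_option linter.unusedVariables false

open CategoryTheory

namespace Fermat.Agent.H77

open Fermat.Agent.H13.Cft Fermat.Agent.H97.Shap Fermat.Agent.H39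

section generic

variable {G Γ : Type} [Group G] [Group Γ] (loc : Γ →* G) (U : Subgroup G)

/-- The double coset relation `y ∈ U x loc(Γ)`. -/
def gcsDCSetoid : Setoid G where
  r x y := ∃ (u : U) (γ : Γ), y = u * x * loc γ
  iseqv :=
    { refl := fun x => ⟨1, 1, by simp⟩
      symm := by
        rintro x y ⟨u, γ, h⟩
        refine ⟨u⁻¹, γ⁻¹, ?_⟩
        rw [h, map_inv]
        push_cast
        group
      trans := by
        rintro x y z ⟨u, γ, h⟩ ⟨u', γ', h'⟩
        refine ⟨u' * u, γ * γ', ?_⟩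
        rw [h', h, map_mul]
        push_cast
        group }

/-- A set of representatives of the double cosets `U \ G / loc(Γ)` exists. -/
theorem gcs_exists_reps_set :
    ∃ R : Set G, ∀ x : G, ∃! g : G, g ∈ R ∧ ∃ (u : U) (γ : Γ), x = u * g * loc γ := by
  let s := gcsDCSetoid loc U
  refine ⟨Set.range (fun c : Quotient s => c.out), fun x => ?_⟩
  refine ⟨(Quotient.mk s x).out, ⟨⟨_, rfl⟩, ?_⟩, ?_⟩
  · exact Quotient.exact (Quotient.out_eq (Quotient.mk s x))
  · rintro g ⟨⟨c, rfl⟩, hg⟩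
    have h1 : Quotient.mk s c.out = Quotient.mk s x := Quotient.sound hg
    rw [Quotient.out_eq] at h1
    rw [h1]

/-- A finite set of representatives of the double cosets `U \ G / loc(Γ)` exists if `U` has
finite index. -/
theorem gcs_exists_reps_finset [U.FiniteIndex] :
    ∃ R : Finset G, ∀ x : G, ∃! g : G, g ∈ R ∧ ∃ (u : U) (γ : Γ), x = u * g * loc γ := by
  classical
  obtain ⟨R, hR⟩ := gcs_exists_reps_set loc U
  have hfin : R.Finite := mackey_finite_reps loc U hR
  refine ⟨hfin.toFinset, fun x => ?_⟩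
  obtain ⟨g, ⟨hgR, hg⟩, huniq⟩ := hR x
  refine ⟨g, ⟨hfin.mem_toFinset.2 hgR, hg⟩, ?_⟩
  rintro g' ⟨hg'R, hg'⟩
  exact huniq g' ⟨hfin.mem_toFinset.1 hg'R, hg'⟩

end generic

/-- **Existence of place representatives.** -/
theorem gcs_exists_placeReps {k G : Type} [CommRing k] [Group G] (𝔄 : ArithDatum k G)
    (U : Subgroup G) (hU : ∃ N ∈ 𝔄.lvl.sets, N ≤ U) (v : 𝔄.ι) :
    ∃ R : Finset G, IsPlaceReps 𝔄 U v R := by
  haveI : U.FiniteIndex := by
    obtain ⟨N, hN, hNU⟩ := hU
    haveI := 𝔄.lvl.finiteIndex N hN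
    exact Subgroup.finiteIndex_of_le hNU
  exact gcs_exists_reps_finset (𝔄.loc v) U

/-- Place representatives in the shape of the Mackey statement. -/
theorem gcs_placeReps_mackey {k G : Type} [CommRing k] [Group G] (𝔄 : ArithDatum k G)
    (U : Subgroup G) (v : 𝔄.ι) (R : Finset G) (hR : IsPlaceReps 𝔄 U v R) :
    ∀ x : G, ∃! g : G, g ∈ (R : Set G) ∧ ∃ (u : U) (γ : 𝔄.Γ v), x = u * g * 𝔄.loc v γ := by
  intro x
  obtain ⟨g, ⟨hgR, hg⟩, huniq⟩ := hR x
  refine ⟨g, ⟨Finset.mem_coe.2 hgR, hg⟩, ?_⟩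
  rintro g' ⟨hg'R, hg'⟩
  exact huniq g' ⟨Finset.mem_coe.1 hg'R, hg'⟩

end Fermat.Agent.H77
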