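/-
helper77, P-CFT row 957 (GC-SHAP), part 4: the count for a general arithmetic datum.

`P = 𝔽_p[G/U]`, `e : P ≅ Coind_U 𝔽_p`.
* `gcs_sha_finite_card` : `Ш²(P)` is finite of order `≤ # Rsha`;
* `gcs_card_h1_global`  : `# H¹(G, P) = # Hom_level(U, ZMod p)`;
* `gcs_card_h1_local`   : `# H¹(Γ_v, P) = ∏_{g ∈ R} # Hom_level(D_{v,g}, ZMod p)`;
* `gcs_card_h1_loc`     : `# H¹(loc, P) = ∏_v ∏_{g ∈ R v} # Hom_level(D_{v,g}, ZMod p)`;
* `gcs_count`           : the frame statement `[GC]` for `(𝔄, U)` from the elementary count.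
-/
import Fermat.Agent.H77.GcShap.LocTriv
import Fermat.Agent.H77.GcShap.Reps

set_option autoImplicit false
set_option linter.style.haveILetI false
set_option linter.unusedSectionVars false
set_option linter.unusedVariables false

open CategoryTheory groupCohomology

namespace Fermat.Agent.H77

open Fermat.Agent.H13.Cft Fermat.Agent.H19 Fermat.Agent.H78.CFT Fermat.Agent.H85.LcShap
  Fermat.Agent.H97.Shap Fermat.Agent.H75.LocFin

noncomputable section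

/-! ### Elementary closure properties -/

section elementary

variable {H : Type} [Group H] (𝒲 : LevelSys H) {A : Type} [AddCommGroup A]

lemma gcs_isLvl₁_sub {f f' : H → A} (hf : IsLvl₁ 𝒲 f) (hf' : IsLvl₁ 𝒲 f') :
    IsLvl₁ 𝒲 (fun x => f x - f' x) := by
  obtain ⟨N, hN, h⟩ := hf
  obtain ⟨N', hN', h'⟩ := hf'
  obtain ⟨N'', hN'', hle⟩ := 𝒲.directed N hN N' hN'
  refine ⟨N'', hN'', fun g n hn => ?_⟩
  simp only
  rw [h g n (hle.trans inf_le_left hn), h' g n (hle.trans inf_le_right hn)]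

lemma gcs_isLvlCoboundary₂_sub {a b : H × H → A} (ha : IsLvlCoboundary₂ 𝒲 a)
    (hb : IsLvlCoboundary₂ 𝒲 b) : IsLvlCoboundary₂ 𝒲 (fun x => a x - b x) := by
  obtain ⟨f, hf, hfa⟩ := ha
  obtain ⟨f', hf', hfb⟩ := hb
  refine ⟨fun x => f x - f' x, gcs_isLvl₁_sub 𝒲 hf hf', fun g h => ?_⟩
  simp only
  rw [← hfa g h, ← hfb g h]
  abel

end elementary

variable {p : ℕ} [Fact p.Prime] {G : Type} [Group G] (𝔄 : ArithDatum (ZMod p) G)
  (U : Subgroup G) (hU : ∃ N ∈ 𝔄.lvl.sets, N ≤ U)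

/-! ### `Ш²` -/

/-- `Ш²(𝔽_p[G/U])` is finite, of order at most `# Rsha`. -/
theorem gcs_sha_finite_card (e : gcsP p U ≅ gcsC p U) (Rsha : Finset (U × U → ZMod p))
    (hR : ∀ c : U × U → ZMod p, IsLvl₂ (𝔄.lvl.restrict U hU) c → IsTrivCocycle₂ c →
      (∀ (v : 𝔄.ι) (g : G), IsLocTriv₂ 𝔄 U hU c v g) →
      ∃ r ∈ Rsha, IsLvlCoboundary₂ (𝔄.lvl.restrict U hU) (fun x => c x - r x)) :
    Finite (frameSha 𝔄 (gcsP p U) 2) ∧ Nat.card (frameSha 𝔄 (gcsP p U) 2) ≤ Rsha.card := by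
  classical
  have key : ∀ x : frameSha 𝔄 (gcsP p U) 2,
      ∃ (c : lvlCochains (𝔄.lvl.restrict U hU) (trivZ U p) 2)
        (hc : lvlD (𝔄.lvl.restrict U hU) (trivZ U p) 2 c = 0) (r : U × U → ZMod p),
        (HomologicalComplex.homologyMap (gcsSigma 𝔄 U hU e) 2).hom x.1 =
          lvlHMk (𝔄.lvl.restrict U hU) (trivZ U p) 2 c hc ∧ r ∈ Rsha ∧
        IsLvlCoboundary₂ (𝔄.lvl.restrict U hU) (fun q => gcsElem₂ c q - r q) := by
    intro x
    obtain ⟨c, hc, hxc⟩ := lvlHMk_surjective (𝔄.lvl.restrict U hU) (trivZ U p) 2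
      ((HomologicalComplex.homologyMap (gcsSigma 𝔄 U hU e) 2).hom x.1)
    obtain ⟨r, hr, hcr⟩ := hR (gcsElem₂ c) (gcs_isLvl₂ c) (gcs_isTrivCocycle₂ c hc)
      (fun v g => gcs_isLocTriv₂ 𝔄 U hU e x.1 x.2 c hc hxc.symm v g)
    exact ⟨c, hc, r, hxc.symm, hr, hcr⟩
  choose c hc r hxc hr hcr using key
  let F : frameSha 𝔄 (gcsP p U) 2 → ↥Rsha := fun x => ⟨r x, hr x⟩
  have hF : Function.Injective F := by
    intro x x' h
    have hrr : r x = r x' := congrArg Subtype.val h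
    have h1 := gcs_isLvlCoboundary₂_sub (𝔄.lvl.restrict U hU) (hcr x) (hcr x')
    have h2 : IsLvlCoboundary₂ (𝔄.lvl.restrict U hU) (gcsElem₂ (c x - c x')) := by
      have hfun : gcsElem₂ (c x - c x') =
          fun q => (gcsElem₂ (c x) q - r x q) - (gcsElem₂ (c x') q - r x' q) := by
        funext q
        rw [hrr]
        show ((c x).1 ![q.1, q.2] - (c x').1 ![q.1, q.2] : ZMod p) = _
        simp only [gcsElem₂]
        ring
      rw [hfun]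
      exact h1
    obtain ⟨b, hb⟩ := (gcs_isLvlCoboundary₂_iff _).2 h2
    have h3 : lvlHMk (𝔄.lvl.restrict U hU) (trivZ U p) 2 (c x) (hc x) =
        lvlHMk (𝔄.lvl.restrict U hU) (trivZ U p) 2 (c x') (hc x') :=
      (lvlHMk_succ_eq_iff (𝔄.lvl.restrict U hU) (trivZ U p) 1 (c x) (c x') (hc x) (hc x')).2
        ⟨b, hb⟩
    apply Subtype.ext
    apply (gcsSigma_bijective 𝔄 U hU e 2).1
    rw [hxc x, hxc x', h3]
  haveI : Finite (frameSha 𝔄 (gcsP p U) 2) := Finite.of_injective F hF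
  refine ⟨inferInstance, ?_⟩
  calc Nat.card (frameSha 𝔄 (gcsP p U) 2) ≤ Nat.card ↥Rsha :=
        Nat.card_le_card_of_injective F hF
    _ = Rsha.card := by rw [Nat.card_eq_fintype_card, Fintype.card_coe]

/-! ### `H¹` -/

/-- `# H¹(G, 𝔽_p[G/U]) = # Hom_level(U, ZMod p)`. -/
theorem gcs_card_h1_global (e : gcsP p U ≅ gcsC p U) :
    Nat.card (lvlH 𝔄.lvl (gcsP p U) 1) =
      Nat.card {ψ : U → ZMod p // IsLvlHom (𝔄.lvl.restrict U hU) ψ} := by
  rw [← gcs_natCard_h1]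
  exact Nat.card_eq_of_bijective _ (gcsSigma_bijective 𝔄 U hU e 1)

/-- `# H¹(Γ_v, 𝔽_p[G/U]) = ∏_{g ∈ R} # Hom_level(D_{v,g}, ZMod p)`. -/
theorem gcs_card_h1_local (e : gcsP p U ≅ gcsC p U) (v : 𝔄.ι) (R : Finset G) (hR : IsPlaceReps 𝔄 U v R) :
    Nat.card (lvlH (𝔄.lvlv v) (Rep.res (𝔄.loc v) (gcsP p U)) 1) =
      ∏ g ∈ R, Nat.card {ψ : mackeySubgroup (𝔄.loc v) U g → ZMod p //
        IsLvlHom (decLvl 𝔄 U hU v g) ψ} := by
  classical
  have h1 := gcs_bijective_lvlMap (𝔄.lvlv v) ((Rep.resFunctor (𝔄.loc v)).mapIso e) 1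
  have h2 := Fermat.Agent.H39.mackeyStatement.{0} Fermat.Agent.H97.Shap.shapiro.{0} 𝔄.lvl
    (𝔄.lvlv v) (𝔄.loc v) (𝔄.compat v) U hU (R : Set G) (gcs_placeReps_mackey 𝔄 U v R hR)
    (trivZ U p) (lcs_isSmooth_trivial _) 1
  have e1 := Nat.card_eq_of_bijective _ h1
  have e2 := Nat.card_eq_of_bijective _ h2
  rw [Nat.card_pi] at e2
  have e3 : ∀ g : G, Nat.card (lvlH ((𝔄.lvlv v).restrict (mackeySubgroup (𝔄.loc v) U g)
      (mackeySubgroup_open (𝔄.loc v) U g (𝔄.compat v) hU))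
      (Rep.res (mackeyLoc (𝔄.loc v) U g) (trivZ U p)) 1) =
      Nat.card {ψ : mackeySubgroup (𝔄.loc v) U g → ZMod p //
        IsLvlHom (decLvl 𝔄 U hU v g) ψ} :=
    fun g => gcs_natCard_h1 p (decLvl 𝔄 U hU v g)
  have e4 : ∏ g : ↥(R : Set G), Nat.card (lvlH ((𝔄.lvlv v).restrict
      (mackeySubgroup (𝔄.loc v) U g.1)
      (mackeySubgroup_open (𝔄.loc v) U g.1 (𝔄.compat v) hU))
      (Rep.res (mackeyLoc (𝔄.loc v) U g.1) (trivZ U p)) 1) =
      ∏ g ∈ R, Nat.card {ψ : mackeySubgroup (𝔄.loc v) U g → ZMod p //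
        IsLvlHom (decLvl 𝔄 U hU v g) ψ} := by
    rw [← Finset.prod_coe_sort R]
    exact Finset.prod_congr rfl (fun g _ => e3 g.1)
  rw [e1, e2]
  exact e4

/-- `# H¹(loc, 𝔽_p[G/U]) = ∏_v ∏_{g ∈ R v} # Hom_level(D_{v,g}, ZMod p)`. -/
theorem gcs_card_h1_loc (e : gcsP p U ≅ gcsC p U) (R : 𝔄.ι → Finset G) (hR : ∀ v, IsPlaceReps 𝔄 U v (R v)) :
    Nat.card ((locComplex 𝔄 (gcsP p U)).homology 1) =
      ∏ v, ∏ g ∈ R v, Nat.card {ψ : mackeySubgroup (𝔄.loc v) U g → ZMod p //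
        IsLvlHom (decLvl 𝔄 U hU v g) ψ} := by
  rw [Nat.card_congr (locHomologyEquiv 𝔄 (gcsP p U) 1).toEquiv, Nat.card_pi]
  exact Finset.prod_congr rfl (fun v _ => gcs_card_h1_local 𝔄 U hU e v (R v) (hR v))


/-! ### The count -/

lemma gcs_isLvlHom_zero {H : Type} [Group H] (𝒲 : LevelSys H) :
    IsLvlHom 𝒲 (0 : H → ZMod p) := by
  refine ⟨fun g h => by simp, ?_⟩
  obtain ⟨N, hN⟩ := 𝒲.nonempty
  exact ⟨N, hN, fun _ _ _ => rfl⟩

/-- **The frame statement `[GC]` for `(𝔄, U)`** from the elementary count: finiteness of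
`Hom_level(U, ZMod p)` and of the `Hom_level(D_{v,g}, ZMod p)`, a finite set `Rsha` of
representatives of the locally trivial classes, and the inequality
`∏ # Hom_level(D_{v,g}) · (# Rsha)² ≤ (# Hom_level(U))²`. -/
theorem gcs_count (e : gcsP p U ≅ gcsC p U) (hfinU : H1Finite (𝔄.lvl.restrict U hU) p)
    (hfinD : ∀ (v : 𝔄.ι) (g : G), Finite {ψ : mackeySubgroup (𝔄.loc v) U g → ZMod p //
      IsLvlHom (decLvl 𝔄 U hU v g) ψ})
    (Rsha : Finset (U × U → ZMod p))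
    (hRsha : ∀ c : U × U → ZMod p, IsLvl₂ (𝔄.lvl.restrict U hU) c → IsTrivCocycle₂ c →
      (∀ (v : 𝔄.ι) (g : G), IsLocTriv₂ 𝔄 U hU c v g) →
      ∃ r ∈ Rsha, IsLvlCoboundary₂ (𝔄.lvl.restrict U hU) (fun x => c x - r x))
    (hcount : ∀ R : 𝔄.ι → Finset G, (∀ v, IsPlaceReps 𝔄 U v (R v)) →
      (∏ v, ∏ g ∈ R v, Nat.card {ψ : mackeySubgroup (𝔄.loc v) U g → ZMod p //
          IsLvlHom (decLvl 𝔄 U hU v g) ψ}) * Rsha.card ^ 2
        ≤ Nat.card {ψ : U → ZMod p // IsLvlHom (𝔄.lvl.restrict U hU) ψ} ^ 2) :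
    Module.Finite (ZMod p) (lvlH 𝔄.lvl (gcsP p U) 1) ∧
    Module.Finite (ZMod p) (frameSha 𝔄 (gcsP p U) 2) ∧
    Module.finrank (ZMod p) ((locComplex 𝔄 (gcsP p U)).homology 1)
        + 2 * Module.finrank (ZMod p) (frameSha 𝔄 (gcsP p U) 2)
      ≤ 2 * Module.finrank (ZMod p) (lvlH 𝔄.lvl (gcsP p U) 1) := by
  classical
  choose R hR using fun v => gcs_exists_placeReps 𝔄 U hU v
  -- finiteness
  haveI hf1 : Finite (lvlH 𝔄.lvl (gcsP p U) 1) := by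
    haveI : Module.Finite (ZMod p) (lvlH (𝔄.lvl.restrict U hU) (trivZ U p) 1) :=
      gcs_finite_h1 p _ hfinU
    haveI : Finite (lvlH (𝔄.lvl.restrict U hU) (trivZ U p) 1) :=
      Module.finite_of_finite (ZMod p)
    exact Finite.of_injective _ (gcsSigma_bijective 𝔄 U hU e 1).1
  obtain ⟨hfsha, hcsha⟩ := gcs_sha_finite_card 𝔄 U hU e Rsha hRsha
  haveI := hfsha
  have hcl := gcs_card_h1_loc 𝔄 U hU e R hR
  have hcg := gcs_card_h1_global 𝔄 U hU e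
  haveI hfloc : Finite ((locComplex 𝔄 (gcsP p U)).homology 1) := by
    apply Nat.finite_of_card_ne_zero
    rw [hcl]
    refine Finset.prod_ne_zero_iff.2 fun v _ => Finset.prod_ne_zero_iff.2 fun g _ => ?_
    haveI := hfinD v g
    haveI : Nonempty {ψ : mackeySubgroup (𝔄.loc v) U g → ZMod p //
        IsLvlHom (decLvl 𝔄 U hU v g) ψ} := ⟨⟨0, gcs_isLvlHom_zero _⟩⟩
    exact Nat.card_pos.ne'
  have hmf1 : Module.Finite (ZMod p) (lvlH 𝔄.lvl (gcsP p U) 1) := Module.Finite.of_finite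
  have hmfsha : Module.Finite (ZMod p) (frameSha 𝔄 (gcsP p U) 2) := Module.Finite.of_finite
  refine ⟨hmf1, hmfsha, ?_⟩
  have hc := hcount R hR
  rw [← hcl, ← hcg] at hc
  have k1 := FiniteField.pow_finrank_eq_natCard p ((locComplex 𝔄 (gcsP p U)).homology 1)
  have k2 := FiniteField.pow_finrank_eq_natCard p (frameSha 𝔄 (gcsP p U) 2)
  have k3 := FiniteField.pow_finrank_eq_natCard p (lvlH 𝔄.lvl (gcsP p U) 1)
  have hle : p ^ (Module.finrank (ZMod p) ((locComplex 𝔄 (gcsP p U)).homology 1)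
      + 2 * Module.finrank (ZMod p) (frameSha 𝔄 (gcsP p U) 2))
      ≤ p ^ (2 * Module.finrank (ZMod p) (lvlH 𝔄.lvl (gcsP p U) 1)) := by
    calc p ^ (Module.finrank (ZMod p) ((locComplex 𝔄 (gcsP p U)).homology 1)
          + 2 * Module.finrank (ZMod p) (frameSha 𝔄 (gcsP p U) 2))
        = p ^ Module.finrank (ZMod p) ((locComplex 𝔄 (gcsP p U)).homology 1)
          * (p ^ Module.finrank (ZMod p) (frameSha 𝔄 (gcsP p U) 2)) ^ 2 := by ring
      _ = Nat.card ((locComplex 𝔄 (gcsP p U)).homology 1)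
          * Nat.card (frameSha 𝔄 (gcsP p U) 2) ^ 2 := by rw [k1, k2]
      _ ≤ Nat.card ((locComplex 𝔄 (gcsP p U)).homology 1) * Rsha.card ^ 2 :=
          Nat.mul_le_mul_left _ (Nat.pow_le_pow_left hcsha 2)
      _ ≤ Nat.card (lvlH 𝔄.lvl (gcsP p U) 1) ^ 2 := hc
      _ = p ^ (2 * Module.finrank (ZMod p) (lvlH 𝔄.lvl (gcsP p U) 1)) := by
          rw [← k3]; ring
  exact (Nat.pow_le_pow_iff_right (Fact.out : p.Prime).one_lt).1 hle

end

end Fermat.Agent.H77
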