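/-
helper77, P-CFT row 957 (GC-SHAP), part 5: the frame row

  `globalCountOfU : GlobalCountOfUStatement`
     (= `GlobalCountUStatement → LocalCohStatement → GlobalCountStatement`).

The count `gcs_count` for a general arithmetic datum (Shapiro + Mackey + the dictionary between
level cochains with trivial coefficients and functions) is applied to `arithDatumQ p S hχ`; the
finiteness of the `Hom_level(D_{q,g}, ZMod p)` comes from `[LC]` for the open subgroups
`D_{q,g} ≤ Γ_q` (on which the cyclotomic character is trivial).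
-/
import Fermat.Agent.H77.GcShap.Count

set_option autoImplicit false
set_option linter.style.haveILetI false
set_option linter.unusedSectionVars false
set_option linter.unusedVariables false

open CategoryTheory groupCohomology ExtCitation

namespace Fermat.Agent.H77

open Fermat.Agent.H13.Cft Fermat.Agent.H19 Fermat.Agent.H78.CFT Fermat.Agent.H85.LcShap
  Fermat.Agent.H97.Shap Fermat.Agent.H75.LocFin

/-- The decomposition subgroup `D_{q,g}` of a `χ`-open subgroup `U ≤ G` is `χ ∘ loc`-open. -/
lemma gcs_isChiOpen_mackey {k G Γ : Type} [Field k] [Group G] [Group Γ] {𝒰 : LevelSys G}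
    {𝒱 : LevelSys Γ} (loc : Γ →* G) (hloc : 𝒱.Compat 𝒰 loc) (χ : G →* kˣ) (U : Subgroup G)
    (hU : IsChiOpen 𝒰 χ U) (g : G) :
    IsChiOpen 𝒱 (χ.comp loc) (mackeySubgroup loc U g) := by
  refine ⟨mackeySubgroup_open loc U g hloc hU.1, fun u hu => ?_⟩
  have h1 : χ (g * loc u * g⁻¹) = 1 := hU.2 _ hu
  rw [map_mul, map_mul, map_inv, mul_comm, ← mul_assoc, inv_mul_cancel, one_mul] at h1
  exact h1

/-- **[GC-SHAP]** The frame statement `[GC]` from the elementary count `[GC-U]` and the local
statement `[LC]`. -/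
theorem globalCountOfU : GlobalCountOfUStatement := by
  intro hGCU hLC p _ hp2 S hpS hχ U hU
  obtain ⟨hfinU, Rsha, hRsha, hcount⟩ := hGCU p hp2 S hpS hχ U hU
  haveI : U.FiniteIndex := by
    obtain ⟨N, hN, hNU⟩ := hU.1
    haveI : N.FiniteIndex := (globalLevelSys S).finiteIndex N hN
    exact Subgroup.finiteIndex_of_le hNU
  obtain ⟨e⟩ := Fermat.Agent.H97.Shap.permCoindU.{0} (k := ZMod p) U
  refine gcs_count (arithDatumQ p S hχ) U hU.1 e hfinU ?_ Rsha hRsha hcount
  intro v g
  have hV := gcs_isChiOpen_mackey (primeLocalToGlobal v.1) ((arithDatumQ p S hχ).compat v)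
    (cycloChar p) U hU g
  have h1 := (hLC p hp2 v.1 _ hV).1
  obtain ⟨e1⟩ := lcs_perm_iso (k := ZMod p) (pullbackLevelSys (primeLocalToGlobal v.1))
    (mackeySubgroup (primeLocalToGlobal v.1) U g) hV.1 1
  have h2 : Module.Finite (ZMod p) (lvlH ((pullbackLevelSys (primeLocalToGlobal v.1)).restrict
      (mackeySubgroup (primeLocalToGlobal v.1) U g) hV.1)
      (trivZ (mackeySubgroup (primeLocalToGlobal v.1) U g) p) 1) :=
    Module.Finite.equiv e1.toLinearEquiv
  exact gcs_finite_lvlHom p _ h2

end Fermat.Agent.H77
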